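import Mathlib
import Fermat.Agent.MUL.Lib.FlatMod.Order
import Fermat.Agent.MUL.Orig.Lib.FlatMod.RatLoc

section MergeWrap_Lib_FlatMod_Saturation -- from Lib/FlatMod/Saturation.lean

set_option autoImplicit false
set_option linter.style.haveILetI false
set_option linter.unusedSectionVars false

namespace Fermat.Agent.FlatMod

open GaloisRep TensorProduct WithConv

local notation "Kb" => AlgebraicClosure ℚ
local notation "GK" => (AlgebraicClosure ℚ ≃ₐ[ℚ] AlgebraicClosure ℚ)

variable {p : ℕ}

/-- A function on a finite set with integral values is integral. -/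
theorem isIntegral_pi_of_forall {R : Type*} [CommRing R] {W : Type*} [Finite W] {A : Type*}
    [CommRing A] [Algebra R A] (f : W → A) (hf : ∀ w, IsIntegral R (f w)) :
    IsIntegral R f := by
  classical
  haveI := Fintype.ofFinite W
  choose q hq hq0 using hf
  refine ⟨∏ w, q w, Polynomial.monic_prod_of_monic _ _ (fun w _ => hq w), ?_⟩
  funext w
  have h1 : (Polynomial.eval₂ (algebraMap R (W → A)) f (∏ w, q w)) w =
      Polynomial.eval₂ (algebraMap R A) (f w) (∏ w, q w) := by
    have := Polynomial.hom_eval₂ (∏ w, q w) (algebraMap R (W → A)) (Pi.evalRingHom (fun _ => A) w) f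
    have h2 : (Pi.evalRingHom (fun _ : W => A) w).comp (algebraMap R (W → A)) = algebraMap R A :=
      rfl
    rw [h2] at this
    exact this
  rw [h1, Polynomial.eval₂_finsetProd]
  exact Finset.prod_eq_zero (Finset.mem_univ w) (hq0 w)

section SAT

variable [Fact p.Prime] {B₀ : Type*} [AddCommGroup B₀] [Module (ratLocalizedAt p) B₀]
  {κ : Type*} [Fintype κ] (β : Module.Basis κ (ratLocalizedAt p) B₀)
  {J : Type*} (φ : J → (B₀ →ₗ[ratLocalizedAt p] Kb))

include β in
/-- **Galois saturation**: an equivariant function in the span, with integral coefficients, of the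
image of a finite free module under a Galois-stable jointly injective family of functionals is in
the image. -/
theorem galois_saturation
    (hgal : ∀ (σ : GK) (j : J), ∃ j', ∀ x, φ j' x = σ (φ j x))
    (hinj : ∀ x : B₀, (∀ j, φ j x = 0) → x = 0)
    (F : J → Kb) {α : Type*} (s : Finset α) (a : α → Kb) (z : α → B₀)
    (ha : ∀ i ∈ s, IsIntegral (ratLocalizedAt p) (a i))
    (hF : ∀ j, F j = ∑ i ∈ s, a i * φ j (z i))
    (hFeq : ∀ (σ : GK) (j j' : J), (∀ x, φ j' x = σ (φ j x)) → F j' = σ (F j)) :
    ∃ x : B₀, ∀ j, φ j x = F j := by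
  classical
  -- coefficients on the basis
  let a' : κ → Kb := fun k => ∑ i ∈ s, a i * algebraMap (ratLocalizedAt p) Kb (β.repr (z i) k)
  have ha' : ∀ k, IsIntegral (ratLocalizedAt p) (a' k) := fun k =>
    IsIntegral.sum _ (fun i hi => (ha i hi).mul isIntegral_algebraMap)
  have hF' : ∀ j, F j = ∑ k, a' k * φ j (β k) := by
    intro j
    rw [hF j]
    simp only [a', Finset.sum_mul]
    rw [Finset.sum_comm]
    refine Finset.sum_congr rfl (fun i _ => ?_)
    conv_lhs => rw [← β.sum_repr (z i), map_sum, Finset.mul_sum]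
    refine Finset.sum_congr rfl (fun k _ => ?_)
    rw [map_smul, Algebra.smul_def]
    ring
  have hfix : ∀ (σ : GK) (k : κ), σ (a' k) = a' k := by
    intro σ
    have hc : (fun k => σ (a' k) - a' k) = 0 := by
      apply kl_coord β φ hgal hinj
      intro j''
      obtain ⟨j, hj⟩ := hgal σ⁻¹ j''
      have hj' : ∀ x, φ j'' x = σ (φ j x) := by
        intro x
        rw [hj x]
        exact (AlgEquiv.apply_symm_apply σ _).symm
      have h1 := hFeq σ j j'' hj'
      rw [hF' j'', hF' j, map_sum] at h1
      simp only [map_mul, ← hj'] at h1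
      simp only [sub_mul, Finset.sum_sub_distrib]
      rw [sub_eq_zero]
      exact h1.symm
    intro k
    have := congrFun hc k
    simpa [sub_eq_zero] using this
  have hr : ∀ k, ∃ r : ratLocalizedAt p, algebraMap (ratLocalizedAt p) Kb r = a' k := fun k =>
    mem_range_of_fixed_of_isIntegral (a' k) (fun σ => hfix σ k) (ha' k)
  choose r hr using hr
  refine ⟨∑ k, r k • β k, fun j => ?_⟩
  rw [hF' j, map_sum]
  refine Finset.sum_congr rfl (fun k _ => ?_)
  rw [map_smul, Algebra.smul_def, hr]

end SAT

end Fermat.Agent.FlatMod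
end MergeWrap_Lib_FlatMod_Saturation

section MergeWrap_Lib_FlatMod_OrderGen -- from Lib/FlatMod/OrderGen.lean

set_option autoImplicit false
set_option linter.style.haveILetI false
set_option linter.unusedSectionVars false

namespace Fermat.Agent.FlatMod

open GaloisRep TensorProduct WithConv

local notation "Kb" => AlgebraicClosure ℚ
local notation "GK" => (AlgebraicClosure ℚ ≃ₐ[ℚ] AlgebraicClosure ℚ)

variable {p : ℕ}

section Sub

variable {W : Type*} (H : Subalgebra (ratLocalizedAt p) (W → Kb))

/-- The algebra hom `H ⊗ H → ℚ̄` attached to two points. -/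
noncomputable def tmulAlg (w w' : W) : H ⊗[ratLocalizedAt p] H →ₐ[ratLocalizedAt p] Kb :=
  Algebra.TensorProduct.lift (evPt H w) (evPt H w') (fun _ _ => Commute.all _ _)

theorem tmulAlg_apply (w w' : W) (z : H ⊗[ratLocalizedAt p] H) :
    tmulAlg H w w' z = tmulFun (evPt H w).toLinearMap (evPt H w').toLinearMap z := by
  induction z with
  | zero => simp
  | tmul a b => simp [tmulAlg]
  | add a b ha hb => rw [map_add, map_add, ha, hb]

/-- The algebra hom `H ⊗ H → Map(W × W, ℚ̄)` for a subalgebra of functions. -/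
noncomputable def subTheta2 : H ⊗[ratLocalizedAt p] H →ₐ[ratLocalizedAt p] (W × W → Kb) :=
  AlgHom.pi (fun x : W × W => tmulAlg H x.1 x.2)

theorem subTheta2_apply (z : H ⊗[ratLocalizedAt p] H) (x : W × W) :
    subTheta2 H z x = tmulFun (evPt H x.1).toLinearMap (evPt H x.2).toLinearMap z :=
  tmulAlg_apply H x.1 x.2 z

end Sub

/-- Pull-back of functions along the addition. -/
noncomputable def addPullFun (p : ℕ) (W : Type*) [Add W] :
    (W → Kb) →ₐ[ratLocalizedAt p] (W × W → Kb) :=
  AlgHom.pi (fun x : W × W => Pi.evalAlgHom (ratLocalizedAt p) (fun _ : W => Kb) (x.1 + x.2))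

@[simp] theorem addPullFun_apply {W : Type*} [Add W] (h : W → Kb) (x : W × W) :
    addPullFun p W h x = h (x.1 + x.2) := rfl

/-- Pull-back of functions along the negation. -/
noncomputable def negPullFun (p : ℕ) (W : Type*) [Neg W] :
    (W → Kb) →ₐ[ratLocalizedAt p] (W → Kb) :=
  AlgHom.pi (fun w : W => Pi.evalAlgHom (ratLocalizedAt p) (fun _ : W => Kb) (-w))

@[simp] theorem negPullFun_apply {W : Type*} [Neg W] (h : W → Kb) (w : W) :
    negPullFun p W h w = h (-w) := rfl

/-- The subalgebra of Galois-equivariant functions. -/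
def eqvAlg (p : ℕ) {W : Type*} (act : GK → W → W) : Subalgebra (ratLocalizedAt p) (W → Kb) where
  carrier := {h | ∀ (σ : GK) (w : W), h (act σ w) = σ (h w)}
  mul_mem' := by
    intro a b ha hb σ w
    simp only [Pi.mul_apply, map_mul, ha σ w, hb σ w]
  add_mem' := by
    intro a b ha hb σ w
    simp only [Pi.add_apply, map_add, ha σ w, hb σ w]
  algebraMap_mem' := by
    intro r σ w
    show algebraMap (ratLocalizedAt p) Kb r = σ (algebraMap (ratLocalizedAt p) Kb r)
    rw [gal_algebraMap]

/-- A Hopf order from generators: it suffices to check the closure under comultiplication and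
antipode on the generators. -/
noncomputable def HopfOrder.ofGenerators [Fact p.Prime] {W : Type*} [AddCommGroup W] [Finite W]
    (act : GK → W → W) {ι : Type*} [Finite ι] (c : ι → W → Kb)
    (hint : ∀ i w, IsIntegral (ratLocalizedAt p) (c i w))
    (hequiv : ∀ i (σ : GK) w, c i (act σ w) = σ (c i w))
    (hsep : ∀ w w' : W, (∀ i, c i w = c i w') → w = w')
    (hadd : ∀ i, ∃ z : (Algebra.adjoin (ratLocalizedAt p) (Set.range c)) ⊗[ratLocalizedAt p]
        (Algebra.adjoin (ratLocalizedAt p) (Set.range c)),
      ∀ w w', tmulFun (evPt _ w).toLinearMap (evPt _ w').toLinearMap z = c i (w + w'))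
    (hneg : ∀ i, (fun w => c i (-w)) ∈ Algebra.adjoin (ratLocalizedAt p) (Set.range c)) :
    HopfOrder p W act where
  alg := Algebra.adjoin (ratLocalizedAt p) (Set.range c)
  fin := Module.Finite.iff_fg.2 (fg_adjoin_of_finite (Set.finite_range c) (by
    rintro _ ⟨i, rfl⟩
    exact isIntegral_pi_of_forall _ (hint i)))
  equiv := by
    have h1 : Algebra.adjoin (ratLocalizedAt p) (Set.range c) ≤ eqvAlg p act := by
      apply Algebra.adjoin_le
      rintro _ ⟨i, rfl⟩
      exact fun σ w => hequiv i σ w
    exact fun h hh => h1 hh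
  sep := by
    intro w w' hww
    apply hsep
    intro i
    exact hww (c i) (Algebra.subset_adjoin ⟨i, rfl⟩)
  add := by
    have h1 : Algebra.adjoin (ratLocalizedAt p) (Set.range c) ≤
        Subalgebra.comap (addPullFun p W)
          (subTheta2 (Algebra.adjoin (ratLocalizedAt p) (Set.range c))).range := by
      apply Algebra.adjoin_le
      rintro _ ⟨i, rfl⟩
      obtain ⟨z, hz⟩ := hadd i
      refine ⟨z, ?_⟩
      funext x
      show subTheta2 (Algebra.adjoin (ratLocalizedAt p) (Set.range c)) z x = _
      rw [subTheta2_apply]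
      exact hz x.1 x.2
    intro h hh
    obtain ⟨z, hz⟩ := h1 hh
    refine ⟨z, fun w w' => ?_⟩
    have := congrFun hz (w, w')
    rw [← subTheta2_apply (Algebra.adjoin (ratLocalizedAt p) (Set.range c)) z (w, w')]
    exact this
  neg := by
    have h1 : Algebra.adjoin (ratLocalizedAt p) (Set.range c) ≤
        Subalgebra.comap (negPullFun p W) (Algebra.adjoin (ratLocalizedAt p) (Set.range c)) := by
      apply Algebra.adjoin_le
      rintro _ ⟨i, rfl⟩
      exact hneg i
    exact fun h hh => h1 hh

end Fermat.Agent.FlatMod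
end MergeWrap_Lib_FlatMod_OrderGen

section MergeWrap_Lib_FlatMod_OrderCoords -- from Lib/FlatMod/OrderCoords.lean

set_option autoImplicit false
set_option linter.style.haveILetI false
set_option linter.unusedSectionVars false

namespace Fermat.Agent.FlatMod

open GaloisRep TensorProduct WithConv

local notation "Kb" => AlgebraicClosure ℚ
local notation "GK" => (AlgebraicClosure ℚ ≃ₐ[ℚ] AlgebraicClosure ℚ)

variable {p : ℕ}

/-- Evaluation of a polynomial expression in functions is pointwise. -/
theorem aeval_pi_apply {W : Type*} {ι : Type*} (c : ι → W → Kb)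
    (P : MvPolynomial ι (ratLocalizedAt p)) (w : W) :
    (MvPolynomial.aeval c P) w = MvPolynomial.aeval (fun j => c j w) P :=
  MvPolynomial.comp_aeval_apply (f := c)
    (Pi.evalAlgHom (ratLocalizedAt p) (fun _ : W => Kb) w) P

/-- **Hopf order criterion, coordinate form (B)**. -/
theorem isFlat_of_coords [Fact p.Prime] {W : Type} [AddCommGroup W] [Finite W]
    (act : GK → W → W) {ι : Type} [Finite ι] (c : ι → W → Kb)
    (hint : ∀ i w, IsIntegral (ratLocalizedAt p) (c i w))
    (hequiv : ∀ i (σ : GK) w, c i (act σ w) = σ (c i w))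
    (hsep : ∀ w w' : W, (∀ i, c i w = c i w') → w = w')
    (hadd : ∀ i, ∃ P : MvPolynomial (ι ⊕ ι) (ratLocalizedAt p), ∀ w w',
      c i (w + w') = MvPolynomial.aeval (Sum.elim (fun j => c j w) (fun j => c j w')) P)
    (hneg : ∀ i, ∃ P : MvPolynomial ι (ratLocalizedAt p), ∀ w,
      c i (-w) = MvPolynomial.aeval (fun j => c j w) P) :
    IsFlatGaloisModule p W act := by
  refine (HopfOrder.ofGenerators act c hint hequiv hsep ?_ ?_).isFlat
  · intro i
    obtain ⟨P, hP⟩ := hadd i
    let gen : ι → Algebra.adjoin (ratLocalizedAt p) (Set.range c) :=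
      fun j => ⟨c j, Algebra.subset_adjoin ⟨j, rfl⟩⟩
    let g : ι ⊕ ι → (Algebra.adjoin (ratLocalizedAt p) (Set.range c)) ⊗[ratLocalizedAt p]
        (Algebra.adjoin (ratLocalizedAt p) (Set.range c)) :=
      Sum.elim (fun j => gen j ⊗ₜ 1) (fun j => 1 ⊗ₜ gen j)
    refine ⟨MvPolynomial.aeval g P, fun w w' => ?_⟩
    rw [← tmulAlg_apply, MvPolynomial.comp_aeval_apply, hP]
    congr 2
    funext k
    cases k with
    | inl j => simp [g, gen, tmulAlg]
    | inr j => simp [g, gen, tmulAlg]
  · intro i
    obtain ⟨P, hP⟩ := hneg i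
    have h1 : (fun w => c i (-w)) = MvPolynomial.aeval c P := by
      funext w
      rw [hP, aeval_pi_apply]
    rw [h1, ← MvPolynomial.aeval_range]
    exact ⟨P, rfl⟩

end Fermat.Agent.FlatMod
end MergeWrap_Lib_FlatMod_OrderCoords

section MergeWrap_Lib_FlatMod_OrderInt -- from Lib/FlatMod/OrderInt.lean

set_option autoImplicit false
set_option linter.style.haveILetI false
set_option linter.unusedSectionVars false

namespace Fermat.Agent.FlatMod

open GaloisRep TensorProduct WithConv

local notation "Kb" => AlgebraicClosure ℚ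
local notation "GK" => (AlgebraicClosure ℚ ≃ₐ[ℚ] AlgebraicClosure ℚ)

variable {p : ℕ}

section Bare

variable {W : Type*} {act : GK → W → W} (H : Subalgebra (ratLocalizedAt p) (W → Kb))
  (hequiv : ∀ h ∈ H, ∀ (σ : GK) (w : W), h (act σ w) = σ (h w))

include hequiv in
theorem gal_tmulFun_evPt (σ : GK) (w w' : W) (z : H ⊗[ratLocalizedAt p] H) :
    σ (tmulFun (evPt H w).toLinearMap (evPt H w').toLinearMap z) =
      tmulFun (evPt H (act σ w)).toLinearMap (evPt H (act σ w')).toLinearMap z := by
  induction z with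
  | zero => simp
  | tmul a b =>
    simp only [tmulFun_tmul, AlgHom.toLinearMap_apply, evPt_apply, map_mul]
    rw [hequiv a.1 a.2, hequiv b.1 b.2]
  | add x y hx hy => rw [map_add, map_add, map_add, hx, hy]

theorem evPt_sep1 (h : H) (hh : ∀ w, (evPt H w).toLinearMap h = 0) : h = 0 := by
  apply Subtype.ext
  funext w
  exact hh w

instance isTorsionFree_subalg : Module.IsTorsionFree (ratLocalizedAt p) H :=
  Function.Injective.moduleIsTorsionFree (fun a : H => (a : W → Kb)) Subtype.val_injective
    (fun _ _ => rfl)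

include hequiv in
theorem evPt_sep2 [Fact p.Prime] [Module.Finite (ratLocalizedAt p) H]
    (z : H ⊗[ratLocalizedAt p] H)
    (hz : ∀ j : W × W, tmulFun (evPt H j.1).toLinearMap (evPt H j.2).toLinearMap z = 0) :
    z = 0 :=
  tensor_separation (Module.Free.chooseBasis (ratLocalizedAt p) H)
    (fun w => (evPt H w).toLinearMap) (fun w => (evPt H w).toLinearMap)
    (fun σ w => ⟨act σ w, fun x => hequiv x.1 x.2 σ w⟩) (evPt_sep1 H) (evPt_sep1 H) z
    (fun w w' => hz (w, w'))

end Bare

/-- Evaluation of a polynomial with coefficients in the integral closure, as an integral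
combination of monomials. -/
theorem aeval_int_eq_sum {κ : Type*} (x : κ → Kb)
    (P : MvPolynomial κ (integralClosure (ratLocalizedAt p) Kb)) :
    MvPolynomial.aeval x P =
      ∑ d ∈ P.support, ((P.coeff d : integralClosure (ratLocalizedAt p) Kb) : Kb) *
        MvPolynomial.aeval x (MvPolynomial.monomial d (1 : ratLocalizedAt p)) := by
  rw [MvPolynomial.aeval_def, MvPolynomial.eval₂_eq]
  refine Finset.sum_congr rfl (fun d _ => ?_)
  rw [MvPolynomial.aeval_monomial, map_one, one_mul]
  rfl

/-- **Hopf order criterion, coordinate form with integral algebraic coefficients**: as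
`isFlat_of_coords`, but the addition and negation laws may have coefficients in the integral
closure of `ℤ_(p)` in `ℚ̄` (the Galois action must then be assumed additive). -/
theorem isFlat_of_coords_int [Fact p.Prime] {W : Type} [AddCommGroup W] [Finite W]
    (act : GK → W → W) (hact : ∀ (σ : GK) (w w' : W), act σ (w + w') = act σ w + act σ w')
    {ι : Type} [Finite ι] (c : ι → W → Kb)
    (hint : ∀ i w, IsIntegral (ratLocalizedAt p) (c i w))
    (hequiv : ∀ i (σ : GK) w, c i (act σ w) = σ (c i w))
    (hsep : ∀ w w' : W, (∀ i, c i w = c i w') → w = w')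
    (hadd : ∀ i, ∃ P : MvPolynomial (ι ⊕ ι) (integralClosure (ratLocalizedAt p) Kb), ∀ w w',
      c i (w + w') = MvPolynomial.aeval (Sum.elim (fun j => c j w) (fun j => c j w')) P)
    (hneg : ∀ i, ∃ P : MvPolynomial ι (integralClosure (ratLocalizedAt p) Kb), ∀ w,
      c i (-w) = MvPolynomial.aeval (fun j => c j w) P) :
    IsFlatGaloisModule p W act := by
  classical
  have hfin : Module.Finite (ratLocalizedAt p) (Algebra.adjoin (ratLocalizedAt p) (Set.range c)) :=
    Module.Finite.iff_fg.2 (fg_adjoin_of_finite (Set.finite_range c) (by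
      rintro _ ⟨i, rfl⟩
      exact isIntegral_pi_of_forall _ (hint i)))
  have heq : ∀ h ∈ Algebra.adjoin (ratLocalizedAt p) (Set.range c), ∀ (σ : GK) (w : W),
      h (act σ w) = σ (h w) := by
    have h1 : Algebra.adjoin (ratLocalizedAt p) (Set.range c) ≤ eqvAlg p act := by
      apply Algebra.adjoin_le
      rintro _ ⟨i, rfl⟩
      exact fun σ w => hequiv i σ w
    exact fun h hh => h1 hh
  have hact0 : ∀ σ : GK, act σ 0 = 0 := by
    intro σ
    have := hact σ 0 0
    rw [add_zero] at this
    exact left_eq_add.1 this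
  have hactneg : ∀ (σ : GK) (w : W), act σ (-w) = - act σ w := by
    intro σ w
    have := hact σ (-w) w
    rw [neg_add_cancel, hact0] at this
    exact eq_neg_of_add_eq_zero_left this.symm
  let gen : ι → Algebra.adjoin (ratLocalizedAt p) (Set.range c) :=
    fun j => ⟨c j, Algebra.subset_adjoin ⟨j, rfl⟩⟩
  have hsepH : ∀ w w' : W, (∀ h : Algebra.adjoin (ratLocalizedAt p) (Set.range c),
      (h : W → Kb) w = (h : W → Kb) w') → w = w' := by
    intro w w' hh
    apply hsep
    intro i
    exact hh (gen i)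
  refine (HopfOrder.ofGenerators act c hint hequiv hsep ?_ ?_).isFlat
  · intro i
    obtain ⟨P, hP⟩ := hadd i
    let g : ι ⊕ ι → (Algebra.adjoin (ratLocalizedAt p) (Set.range c)) ⊗[ratLocalizedAt p]
        (Algebra.adjoin (ratLocalizedAt p) (Set.range c)) :=
      Sum.elim (fun j => gen j ⊗ₜ 1) (fun j => 1 ⊗ₜ gen j)
    have hg : ∀ (w w' : W) (k : ι ⊕ ι),
        tmulAlg (Algebra.adjoin (ratLocalizedAt p) (Set.range c)) w w' (g k) =
          Sum.elim (fun j => c j w) (fun j => c j w') k := by
      intro w w' k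
      cases k with
      | inl j => simp [g, gen, tmulAlg]
      | inr j => simp [g, gen, tmulAlg]
    obtain ⟨z, hz⟩ := galois_saturation
      (Module.Free.chooseBasis (ratLocalizedAt p)
        ((Algebra.adjoin (ratLocalizedAt p) (Set.range c)) ⊗[ratLocalizedAt p]
          (Algebra.adjoin (ratLocalizedAt p) (Set.range c))))
      (fun j : W × W => tmulFun (evPt _ j.1).toLinearMap (evPt _ j.2).toLinearMap)
      (fun σ j => ⟨(act σ j.1, act σ j.2), fun x => (gal_tmulFun_evPt _ heq σ j.1 j.2 x).symm⟩)
      (fun x hx => evPt_sep2 _ heq x hx)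
      (fun j : W × W => c i (j.1 + j.2)) P.support
      (fun d => ((P.coeff d : integralClosure (ratLocalizedAt p) Kb) : Kb))
      (fun d => MvPolynomial.aeval g (MvPolynomial.monomial d (1 : ratLocalizedAt p)))
      (fun d _ => (P.coeff d).2)
      (by
        intro j
        rw [hP, aeval_int_eq_sum]
        refine Finset.sum_congr rfl (fun d _ => ?_)
        congr 1
        rw [← tmulAlg_apply, MvPolynomial.comp_aeval_apply]
        congr 2
        funext k
        exact (hg j.1 j.2 k).symm)
      (by
        intro σ j j' hjj'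
        have h1 : j'.1 = act σ j.1 := by
          apply hsepH
          intro h
          have := hjj' (h ⊗ₜ 1)
          simp only [tmulFun_tmul, AlgHom.toLinearMap_apply, evPt_apply, map_one, mul_one] at this
          rw [this, heq h.1 h.2]
        have h2 : j'.2 = act σ j.2 := by
          apply hsepH
          intro h
          have := hjj' (1 ⊗ₜ h)
          simp only [tmulFun_tmul, AlgHom.toLinearMap_apply, evPt_apply, map_one, one_mul] at this
          rw [this, heq h.1 h.2]
        show c i (j'.1 + j'.2) = σ (c i (j.1 + j.2))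
        rw [h1, h2, ← hact, hequiv])
    exact ⟨z, fun w w' => hz (w, w')⟩
  · intro i
    obtain ⟨P, hP⟩ := hneg i
    obtain ⟨x, hx⟩ := galois_saturation
      (Module.Free.chooseBasis (ratLocalizedAt p) (Algebra.adjoin (ratLocalizedAt p) (Set.range c)))
      (fun w : W => (evPt (Algebra.adjoin (ratLocalizedAt p) (Set.range c)) w).toLinearMap)
      (fun σ w => ⟨act σ w, fun x => heq x.1 x.2 σ w⟩)
      (evPt_sep1 _)
      (fun w : W => c i (-w)) P.support
      (fun d => ((P.coeff d : integralClosure (ratLocalizedAt p) Kb) : Kb))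
      (fun d => MvPolynomial.aeval gen (MvPolynomial.monomial d (1 : ratLocalizedAt p)))
      (fun d _ => (P.coeff d).2)
      (by
        intro w
        rw [hP, aeval_int_eq_sum]
        refine Finset.sum_congr rfl (fun d _ => ?_)
        congr 1
        rw [AlgHom.toLinearMap_apply, MvPolynomial.comp_aeval_apply]
        rfl)
      (by
        intro σ w w' hww'
        have h1 : w' = act σ w := by
          apply hsepH
          intro h
          have := hww' h
          simp only [AlgHom.toLinearMap_apply, evPt_apply] at this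
          rw [this, heq h.1 h.2]
        show c i (-w') = σ (c i (-w))
        rw [h1, ← hactneg, hequiv])
    have h3 : (fun w => c i (-w)) = (x : W → Kb) := by
      funext w
      exact (hx w).symm
    rw [h3]
    exact x.2

end Fermat.Agent.FlatMod
end MergeWrap_Lib_FlatMod_OrderInt

section MergeWrap_Lib_FlatMod_OrderDescent -- from Lib/FlatMod/OrderDescent.lean

set_option autoImplicit false
set_option linter.style.haveILetI false
set_option linter.unusedSectionVars false

namespace Fermat.Agent.FlatMod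

open GaloisRep TensorProduct WithConv

local notation "Kb" => AlgebraicClosure ℚ
local notation "GK" => (AlgebraicClosure ℚ ≃ₐ[ℚ] AlgebraicClosure ℚ)
local notation "Bint" p => integralClosure (ratLocalizedAt p) Kb

variable {p : ℕ}

/-- **Hopf order criterion with unramified descent (B')**: coordinates `c τ i` permuted by the
Galois group (`c (perm σ τ) i (act σ w) = σ (c τ i w)`), integral addition and negation laws, and
an integral invertible equivariant matrix `Ω` (e.g. the Vandermonde matrix of the conjugates of a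
generator of an extension unramified at `p`). -/
theorem isFlat_of_coords_descent [Fact p.Prime] {W : Type} [AddCommGroup W] [Finite W]
    (act : GK → W → W) (hact : ∀ (σ : GK) (w w' : W), act σ (w + w') = act σ w + act σ w')
    {T S ι : Type} [Fintype T] [DecidableEq T] [Fintype S] [Finite ι]
    (perm : GK → T → T) (hperm : ∀ σ, Function.Bijective (perm σ))
    (Ω : Matrix S T (Bint p)) (Ω' : Matrix T S (Bint p)) (hΩ : Ω' * Ω = 1)
    (hΩeq : ∀ (σ : GK) s τ, σ (Ω s τ : Kb) = (Ω s (perm σ τ) : Kb))
    (c : T → ι → W → Kb)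
    (hint : ∀ τ i w, IsIntegral (ratLocalizedAt p) (c τ i w))
    (hequiv : ∀ τ i (σ : GK) w, c (perm σ τ) i (act σ w) = σ (c τ i w))
    (hsep : ∀ w w' : W, (∀ τ i, c τ i w = c τ i w') → w = w')
    (hadd : ∀ τ i, ∃ P : MvPolynomial ((T × ι) ⊕ (T × ι)) (Bint p), ∀ w w',
      c τ i (w + w') =
        MvPolynomial.aeval (Sum.elim (fun k => c k.1 k.2 w) (fun k => c k.1 k.2 w')) P)
    (hneg : ∀ τ i, ∃ P : MvPolynomial (T × ι) (Bint p), ∀ w,
      c τ i (-w) = MvPolynomial.aeval (fun k => c k.1 k.2 w) P) :
    IsFlatGaloisModule p W act := by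
  have hΩ' : ∀ τ τ' : T, ∑ s, Ω' τ s * Ω s τ' = if τ = τ' then 1 else 0 := by
    intro τ τ'
    have := congrFun (congrFun hΩ τ) τ'
    rw [Matrix.mul_apply, Matrix.one_apply] at this
    exact this
  -- the equivariant coordinates
  let t : S × ι → W → Kb := fun k w => ∑ τ, (Ω k.1 τ : Kb) * c τ k.2 w
  have hc : ∀ τ i w, c τ i w = ∑ s, (Ω' τ s : Kb) * t (s, i) w := by
    intro τ i w
    simp only [t, Finset.mul_sum, ← mul_assoc]
    rw [Finset.sum_comm]
    have h1 : ∀ τ', ∑ s, (Ω' τ s : Kb) * (Ω s τ' : Kb) * c τ' i w =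
        (if τ = τ' then 1 else 0) * c τ' i w := by
      intro τ'
      rw [← Finset.sum_mul]
      congr 1
      have := congrArg (fun b : Bint p => (b : Kb)) (hΩ' τ τ')
      simp only [AddSubmonoidClass.coe_finsetSum, MulMemClass.coe_mul] at this
      rw [this]
      split_ifs <;> simp
    simp only [h1]
    simp
  -- linear forms expressing the `c` in terms of the `t`
  let L : T × ι → MvPolynomial (S × ι) (Bint p) := fun k =>
    ∑ s, MvPolynomial.C (Ω' k.1 s) * MvPolynomial.X (s, k.2)
  have hL : ∀ (k : T × ι) (w : W), MvPolynomial.aeval (fun k' => t k' w) (L k) = c k.1 k.2 w := by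
    intro k w
    rw [hc]
    simp only [L, map_sum, map_mul, MvPolynomial.aeval_C, MvPolynomial.aeval_X]
    rfl
  apply isFlat_of_coords_int act hact t
  · intro k w
    exact IsIntegral.sum _ (fun τ _ => (Ω k.1 τ).2.mul (hint τ k.2 w))
  · intro k σ w
    simp only [t, map_sum, map_mul]
    rw [← (Equiv.ofBijective _ (hperm σ)).sum_comp]
    refine Finset.sum_congr rfl (fun τ _ => ?_)
    rw [Equiv.ofBijective_apply, hequiv, hΩeq]
  · intro w w' hww
    apply hsep
    intro τ i
    rw [hc, hc]
    refine Finset.sum_congr rfl (fun s _ => ?_)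
    rw [hww (s, i)]
  · intro k
    choose P hP using hadd
    let M : (T × ι) ⊕ (T × ι) → MvPolynomial ((S × ι) ⊕ (S × ι)) (Bint p) :=
      Sum.elim (fun k' => MvPolynomial.rename Sum.inl (L k'))
        (fun k' => MvPolynomial.rename Sum.inr (L k'))
    refine ⟨∑ τ, MvPolynomial.C (Ω k.1 τ) * MvPolynomial.bind₁ M (P τ k.2), fun w w' => ?_⟩
    simp only [t, map_sum, map_mul, MvPolynomial.aeval_C]
    refine Finset.sum_congr rfl (fun τ _ => ?_)
    congr 1
    rw [hP, MvPolynomial.aeval_bind₁]
    congr 2
    funext k'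
    cases k' with
    | inl k'' =>
      simp only [M, Sum.elim_inl, MvPolynomial.aeval_rename]
      exact (hL k'' w).symm
    | inr k'' =>
      simp only [M, Sum.elim_inr, MvPolynomial.aeval_rename]
      exact (hL k'' w').symm
  · intro k
    choose P hP using hneg
    refine ⟨∑ τ, MvPolynomial.C (Ω k.1 τ) * MvPolynomial.bind₁ L (P τ k.2), fun w => ?_⟩
    simp only [t, map_sum, map_mul, MvPolynomial.aeval_C]
    refine Finset.sum_congr rfl (fun τ _ => ?_)
    congr 1
    rw [hP, MvPolynomial.aeval_bind₁]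
    congr 2
    funext k'
    exact (hL k' w).symm

end Fermat.Agent.FlatMod
end MergeWrap_Lib_FlatMod_OrderDescent

section MergeWrap_Lib_FlatMod_OrderDatum -- from Lib/FlatMod/OrderDatum.lean

set_option autoImplicit false
set_option linter.style.haveILetI false
set_option linter.unusedSectionVars false

namespace Fermat.Agent.FlatMod

open GaloisRep TensorProduct WithConv Polynomial

local notation "Kb" => AlgebraicClosure ℚ
local notation "GK" => (AlgebraicClosure ℚ ≃ₐ[ℚ] AlgebraicClosure ℚ)
local notation "Bint" p => integralClosure (ratLocalizedAt p) Kb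

variable {p : ℕ}

/-- If the coordinates of a sum are polynomials in the coordinates of the summands, then the
coordinates of a multiple `m • w` are polynomials in the coordinates of `w`. -/
theorem exists_nsmul_poly {A L : Type*} [CommRing A] [CommRing L] [Algebra A L] {W : Type*}
    [AddCommMonoid W] {K : Type*} (c : K → W → L)
    (h0 : ∀ k, ∃ a : A, algebraMap A L a = c k 0)
    (hadd : ∀ k, ∃ P : MvPolynomial (K ⊕ K) A, ∀ w w',
      c k (w + w') = MvPolynomial.aeval (Sum.elim (fun j => c j w) (fun j => c j w')) P)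
    (m : ℕ) : ∀ k, ∃ Q : MvPolynomial K A, ∀ w,
      c k (m • w) = MvPolynomial.aeval (fun j => c j w) Q := by
  induction m with
  | zero =>
    intro k
    obtain ⟨a, ha⟩ := h0 k
    refine ⟨MvPolynomial.C a, fun w => ?_⟩
    rw [zero_nsmul, MvPolynomial.aeval_C, ha]
  | succ m ih =>
    intro k
    choose Q hQ using ih
    obtain ⟨P, hP⟩ := hadd k
    refine ⟨MvPolynomial.bind₁ (Sum.elim Q MvPolynomial.X) P, fun w => ?_⟩
    rw [succ_nsmul, hP, MvPolynomial.aeval_bind₁]
    congr 2
    funext j
    cases j with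
    | inl j => simp [hQ]
    | inr j => simp

/-- If the coordinates of a sum are polynomials in the coordinates of the summands, then so are
the coordinates of the negative (`W` finite). -/
theorem exists_neg_poly {A L : Type*} [CommRing A] [CommRing L] [Algebra A L] {W : Type*}
    [AddCommGroup W] [Finite W] {K : Type*} (c : K → W → L)
    (h0 : ∀ k, ∃ a : A, algebraMap A L a = c k 0)
    (hadd : ∀ k, ∃ P : MvPolynomial (K ⊕ K) A, ∀ w w',
      c k (w + w') = MvPolynomial.aeval (Sum.elim (fun j => c j w) (fun j => c j w')) P) :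
    ∀ k, ∃ Q : MvPolynomial K A, ∀ w, c k (-w) = MvPolynomial.aeval (fun j => c j w) Q := by
  intro k
  obtain ⟨Q, hQ⟩ := exists_nsmul_poly c h0 hadd (Nat.card W - 1) k
  refine ⟨Q, fun w => ?_⟩
  rw [← hQ]
  congr 1
  have h1 : 0 < Nat.card W := Nat.card_pos
  have h2 : (Nat.card W - 1) • w + w = 0 := by
    rw [← succ_nsmul, Nat.sub_add_cancel h1]
    exact card_nsmul_eq_zero'
  exact (eq_neg_of_add_eq_zero_left h2).symm

/-- A descent datum: a finite set `T` permuted by the Galois group and an invertible matrix `Ω`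
over the integral closure of `ℤ_(p)` in `ℚ̄` with `σ (Ω s τ) = Ω s (σ τ)`. -/
structure DescentDatum (p : ℕ) (T S : Type) [Fintype T] [DecidableEq T] [Fintype S] where
  perm : GK → T → T
  perm_bij : ∀ σ, Function.Bijective (perm σ)
  Ω : Matrix S T (Bint p)
  Ω' : Matrix T S (Bint p)
  inv : Ω' * Ω = 1
  eqv : ∀ (σ : GK) (s : S) (τ : T), σ (Ω s τ : Kb) = (Ω s (perm σ τ) : Kb)

/-- Form (B') for a descent datum. -/
theorem isFlat_of_coords_datum [Fact p.Prime] {W : Type} [AddCommGroup W] [Finite W]
    (act : GK → W → W) (hact : ∀ (σ : GK) (w w' : W), act σ (w + w') = act σ w + act σ w')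
    {T S ι : Type} [Fintype T] [DecidableEq T] [Fintype S] [Finite ι]
    (D : DescentDatum p T S)
    (c : T → ι → W → Kb)
    (hint : ∀ τ i w, IsIntegral (ratLocalizedAt p) (c τ i w))
    (hequiv : ∀ τ i (σ : GK) w, c (D.perm σ τ) i (act σ w) = σ (c τ i w))
    (hsep : ∀ w w' : W, (∀ τ i, c τ i w = c τ i w') → w = w')
    (hadd : ∀ τ i, ∃ P : MvPolynomial ((T × ι) ⊕ (T × ι)) (Bint p), ∀ w w',
      c τ i (w + w') =
        MvPolynomial.aeval (Sum.elim (fun k => c k.1 k.2 w) (fun k => c k.1 k.2 w')) P)
    (hneg : ∀ τ i, ∃ P : MvPolynomial (T × ι) (Bint p), ∀ w,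
      c τ i (-w) = MvPolynomial.aeval (fun k => c k.1 k.2 w) P) :
    IsFlatGaloisModule p W act :=
  isFlat_of_coords_descent act hact D.perm D.perm_bij D.Ω D.Ω' D.inv D.eqv c hint hequiv hsep
    hadd hneg

/-- The Lagrange interpolation polynomial of the point `t` for a separating family `θ`. -/
noncomputable def lagrangePoly {A : Type} [CommRing A] {T J : Type} [Fintype T] [DecidableEq T]
    (θ : J → T → A) (j : T → T → J) (u : T → T → A) (t : T) : MvPolynomial J A :=
  ∏ t' ∈ Finset.univ.erase t,
    MvPolynomial.C (u t t') * (MvPolynomial.X (j t t') - MvPolynomial.C (θ (j t t') t'))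

theorem eval_lagrangePoly {A : Type} [CommRing A] {T J : Type} [Fintype T] [DecidableEq T]
    (θ : J → T → A) (j : T → T → J) (u : T → T → A)
    (hu : ∀ t t', t ≠ t' → (θ (j t t') t - θ (j t t') t') * u t t' = 1) (t x : T) :
    MvPolynomial.eval (fun i => θ i x) (lagrangePoly θ j u t) = if t = x then 1 else 0 := by
  unfold lagrangePoly
  rw [map_prod]
  simp only [map_mul, MvPolynomial.eval_C, map_sub, MvPolynomial.eval_X]
  split_ifs with h
  · subst h
    apply Finset.prod_eq_one
    intro t' ht'
    rw [mul_comm]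
    exact hu t t' (Finset.ne_of_mem_erase ht').symm
  · apply Finset.prod_eq_zero (i := x)
    · exact Finset.mem_erase.2 ⟨fun h' => h h'.symm, Finset.mem_univ _⟩
    · rw [sub_self, mul_zero]

/-- The finite set of monomials used by the Lagrange descent datum. -/
noncomputable def lagrangeMonomials {A : Type} [CommRing A] {T J : Type} [Fintype T]
    [DecidableEq T] (θ : J → T → A) (j : T → T → J) (u : T → T → A) : Finset (J →₀ ℕ) :=
  letI : DecidableEq (J →₀ ℕ) := Classical.decEq _
  Finset.univ.biUnion fun t => (lagrangePoly θ j u t).support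

theorem sum_lagrangeMonomials {A : Type} [CommRing A] {T J : Type} [Fintype T] [DecidableEq T]
    (θ : J → T → A) (j : T → T → J) (u : T → T → A)
    (hu : ∀ t t', t ≠ t' → (θ (j t t') t - θ (j t t') t') * u t t' = 1) (t x : T) :
    ∑ s : {s // s ∈ lagrangeMonomials θ j u},
      (lagrangePoly θ j u t).coeff s.1 * ∏ i ∈ s.1.support, θ i x ^ s.1 i =
      if t = x then 1 else 0 := by
  rw [← eval_lagrangePoly θ j u hu t x, MvPolynomial.eval_eq]
  rw [Finset.sum_coe_sort (lagrangeMonomials θ j u)
    (fun s => (lagrangePoly θ j u t).coeff s * ∏ i ∈ s.support, θ i x ^ s i)]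
  symm
  apply Finset.sum_subset
  · intro s hs
    unfold lagrangeMonomials
    letI : DecidableEq (J →₀ ℕ) := Classical.decEq _
    exact Finset.mem_biUnion.2 ⟨t, Finset.mem_univ _, hs⟩
  · intro s _ hs
    rw [MvPolynomial.notMem_support_iff.1 hs, zero_mul]

/-- The **Lagrange descent datum** of a Galois-stable family of integral functions on `T` which
separates the points of `T` by unit differences. -/
noncomputable def DescentDatum.lagrange {T J : Type} [Fintype T] [DecidableEq T]
    (θ : J → T → Bint p) (perm : GK → T → T)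
    (hperm : ∀ (σ : GK) (i : J) (t : T), (θ i (perm σ t) : Kb) = σ (θ i t : Kb))
    (j : T → T → J) (u : T → T → Bint p)
    (hu : ∀ t t', t ≠ t' → (θ (j t t') t - θ (j t t') t') * u t t' = 1) :
    DescentDatum p T {s // s ∈ lagrangeMonomials θ j u} where
  perm := perm
  perm_bij := fun σ => by
    have h1 : Function.Injective (perm σ) := by
      intro t t' h
      by_contra hne
      have h2 := hperm σ (j t t') t
      have h3 := hperm σ (j t t') t'
      rw [h] at h2
      have h4 : θ (j t t') t = θ (j t t') t' :=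
        Subtype.ext (σ.injective (h2.symm.trans h3))
      have h5 := hu t t' hne
      rw [h4, sub_self, zero_mul] at h5
      exact zero_ne_one h5
    exact Finite.injective_iff_bijective.1 h1
  Ω := Matrix.of fun s t => ∏ i ∈ s.1.support, θ i t ^ s.1 i
  Ω' := Matrix.of fun t s => (lagrangePoly θ j u t).coeff s.1
  inv := by
    refine Matrix.ext fun t x => ?_
    rw [Matrix.mul_apply, Matrix.one_apply]
    simp only [Matrix.of_apply]
    exact sum_lagrangeMonomials θ j u hu t x
  eqv := fun σ s t => by
    simp only [Matrix.of_apply, SubmonoidClass.coe_finsetProd, SubmonoidClass.coe_pow, map_prod,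
      map_pow]
    apply Finset.prod_congr rfl
    intro i _
    rw [hperm]

/-- **Hopf order criterion, separating form of (B')**: the coordinates `c τ i` are permuted by
the Galois group along a finite set `T`, and `T` carries a Galois-equivariant family of integral
functions `θ i` separating its points by units (e.g. `T` = the conjugates of a generator of an
extension unramified at `p`, or any tower / compositum of such). -/
theorem isFlat_of_coords_separating [Fact p.Prime] {W : Type} [AddCommGroup W] [Finite W]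
    (act : GK → W → W) (hact : ∀ (σ : GK) (w w' : W), act σ (w + w') = act σ w + act σ w')
    {T J ι : Type} [Finite T] [Finite ι]
    (perm : GK → T → T)
    (θ : J → T → Kb) (hθint : ∀ i t, IsIntegral (ratLocalizedAt p) (θ i t))
    (hθeq : ∀ (σ : GK) i t, θ i (perm σ t) = σ (θ i t))
    (hθsep : ∀ t t', t ≠ t' →
      ∃ i, ∃ v : Kb, IsIntegral (ratLocalizedAt p) v ∧ (θ i t - θ i t') * v = 1)
    (c : T → ι → W → Kb)
    (hint : ∀ τ i w, IsIntegral (ratLocalizedAt p) (c τ i w))
    (hequiv : ∀ τ i (σ : GK) w, c (perm σ τ) i (act σ w) = σ (c τ i w))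
    (hsep : ∀ w w' : W, (∀ τ i, c τ i w = c τ i w') → w = w')
    (hadd : ∀ τ i, ∃ P : MvPolynomial ((T × ι) ⊕ (T × ι)) (Bint p), ∀ w w',
      c τ i (w + w') =
        MvPolynomial.aeval (Sum.elim (fun k => c k.1 k.2 w) (fun k => c k.1 k.2 w')) P)
    (hneg : ∀ τ i, ∃ P : MvPolynomial (T × ι) (Bint p), ∀ w,
      c τ i (-w) = MvPolynomial.aeval (fun k => c k.1 k.2 w) P) :
    IsFlatGaloisModule p W act := by
  classical
  letI : Fintype T := Fintype.ofFinite T
  let θ' : Option J → T → Bint p := fun i t =>
    match i with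
    | none => 0
    | some i => ⟨θ i t, hθint i t⟩
  have hθ' : ∀ (σ : GK) (i : Option J) (t : T), (θ' i (perm σ t) : Kb) = σ (θ' i t : Kb) := by
    intro σ i t
    cases i with
    | none => simp [θ']
    | some i => exact hθeq σ i t
  have hex : ∀ t t' : T, ∃ iv : Option J × Bint p,
      t ≠ t' → (θ' iv.1 t - θ' iv.1 t') * iv.2 = 1 := by
    intro t t'
    by_cases h : t = t'
    · exact ⟨(none, 0), fun h' => absurd h h'⟩
    · obtain ⟨i, v, hv, h1⟩ := hθsep t t' h
      exact ⟨(some i, ⟨v, hv⟩), fun _ => Subtype.ext h1⟩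
  choose iv hiv using hex
  exact isFlat_of_coords_datum act hact
    (DescentDatum.lagrange θ' perm hθ' (fun t t' => (iv t t').1) (fun t t' => (iv t t').2) hiv)
    c hint hequiv hsep hadd hneg

/-- Form (B') without the negation law. -/
theorem isFlat_of_coords_descent' [Fact p.Prime] {W : Type} [AddCommGroup W] [Finite W]
    (act : GK → W → W) (hact : ∀ (σ : GK) (w w' : W), act σ (w + w') = act σ w + act σ w')
    {T S ι : Type} [Fintype T] [DecidableEq T] [Fintype S] [Finite ι]
    (perm : GK → T → T) (hperm : ∀ σ, Function.Bijective (perm σ))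
    (Ω : Matrix S T (Bint p)) (Ω' : Matrix T S (Bint p)) (hΩ : Ω' * Ω = 1)
    (hΩeq : ∀ (σ : GK) s τ, σ (Ω s τ : Kb) = (Ω s (perm σ τ) : Kb))
    (c : T → ι → W → Kb)
    (hint : ∀ τ i w, IsIntegral (ratLocalizedAt p) (c τ i w))
    (hequiv : ∀ τ i (σ : GK) w, c (perm σ τ) i (act σ w) = σ (c τ i w))
    (hsep : ∀ w w' : W, (∀ τ i, c τ i w = c τ i w') → w = w')
    (hadd : ∀ τ i, ∃ P : MvPolynomial ((T × ι) ⊕ (T × ι)) (Bint p), ∀ w w',
      c τ i (w + w') =
        MvPolynomial.aeval (Sum.elim (fun k => c k.1 k.2 w) (fun k => c k.1 k.2 w')) P) :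
    IsFlatGaloisModule p W act :=
  isFlat_of_coords_descent act hact perm hperm Ω Ω' hΩ hΩeq c hint hequiv hsep hadd
    (fun τ i => exists_neg_poly (A := Bint p) (fun k : T × ι => c k.1 k.2)
      (fun k => ⟨⟨c k.1 k.2 0, hint k.1 k.2 0⟩, rfl⟩) (fun k => hadd k.1 k.2) (τ, i))

/-- Coordinate form with integral algebraic coefficients, without the negation law. -/
theorem isFlat_of_coords_int' [Fact p.Prime] {W : Type} [AddCommGroup W] [Finite W]
    (act : GK → W → W) (hact : ∀ (σ : GK) (w w' : W), act σ (w + w') = act σ w + act σ w')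
    {ι : Type} [Finite ι] (c : ι → W → Kb)
    (hint : ∀ i w, IsIntegral (ratLocalizedAt p) (c i w))
    (hequiv : ∀ i (σ : GK) w, c i (act σ w) = σ (c i w))
    (hsep : ∀ w w' : W, (∀ i, c i w = c i w') → w = w')
    (hadd : ∀ i, ∃ P : MvPolynomial (ι ⊕ ι) (Bint p), ∀ w w',
      c i (w + w') = MvPolynomial.aeval (Sum.elim (fun j => c j w) (fun j => c j w')) P) :
    IsFlatGaloisModule p W act :=
  isFlat_of_coords_int act hact c hint hequiv hsep hadd
    (exists_neg_poly (A := Bint p) c (fun k => ⟨⟨c k 0, hint k 0⟩, rfl⟩) hadd)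

/-- The separating form of (B') without the negation law. -/
theorem isFlat_of_coords_separating' [Fact p.Prime] {W : Type} [AddCommGroup W] [Finite W]
    (act : GK → W → W) (hact : ∀ (σ : GK) (w w' : W), act σ (w + w') = act σ w + act σ w')
    {T J ι : Type} [Finite T] [Finite ι]
    (perm : GK → T → T)
    (θ : J → T → Kb) (hθint : ∀ i t, IsIntegral (ratLocalizedAt p) (θ i t))
    (hθeq : ∀ (σ : GK) i t, θ i (perm σ t) = σ (θ i t))
    (hθsep : ∀ t t', t ≠ t' →
      ∃ i, ∃ v : Kb, IsIntegral (ratLocalizedAt p) v ∧ (θ i t - θ i t') * v = 1)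
    (c : T → ι → W → Kb)
    (hint : ∀ τ i w, IsIntegral (ratLocalizedAt p) (c τ i w))
    (hequiv : ∀ τ i (σ : GK) w, c (perm σ τ) i (act σ w) = σ (c τ i w))
    (hsep : ∀ w w' : W, (∀ τ i, c τ i w = c τ i w') → w = w')
    (hadd : ∀ τ i, ∃ P : MvPolynomial ((T × ι) ⊕ (T × ι)) (Bint p), ∀ w w',
      c τ i (w + w') =
        MvPolynomial.aeval (Sum.elim (fun k => c k.1 k.2 w) (fun k => c k.1 k.2 w')) P) :
    IsFlatGaloisModule p W act :=
  isFlat_of_coords_separating act hact perm θ hθint hθeq hθsep c hint hequiv hsep hadd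
    (fun τ i => exists_neg_poly (A := Bint p) (fun k : T × ι => c k.1 k.2)
      (fun k => ⟨⟨c k.1 k.2 0, hint k.1 k.2 0⟩, rfl⟩) (fun k => hadd k.1 k.2) (τ, i))

/-- **Hopf order criterion for a product of towers**: the coordinates are indexed by the tuples
`τ = (P_i)_i`, `P_i` running through a finite Galois set `Fib i` on which two integral equivariant
functions `t i`, `s i` are given such that any two distinct points are separated by a unit
difference of `t i` or of `s i`.  No negation law is needed. -/
theorem isFlat_of_coords_towers [Fact p.Prime] {W : Type} [AddCommGroup W] [Finite W]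
    (act : GK → W → W) (hact : ∀ (σ : GK) (w w' : W), act σ (w + w') = act σ w + act σ w')
    {n ι : Type} [Finite n] [Finite ι] {Fib : n → Type} [∀ i, Finite (Fib i)]
    (perm : ∀ i, GK → Fib i → Fib i)
    (t s : ∀ i, Fib i → Kb)
    (ht : ∀ i P, IsIntegral (ratLocalizedAt p) (t i P))
    (hs : ∀ i P, IsIntegral (ratLocalizedAt p) (s i P))
    (hteq : ∀ i (σ : GK) P, t i (perm i σ P) = σ (t i P))
    (hseq : ∀ i (σ : GK) P, s i (perm i σ P) = σ (s i P))
    (hunit : ∀ i (P P' : Fib i), P ≠ P' →
      (∃ v : Kb, IsIntegral (ratLocalizedAt p) v ∧ (t i P - t i P') * v = 1) ∨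
      (∃ v : Kb, IsIntegral (ratLocalizedAt p) v ∧ (s i P - s i P') * v = 1))
    (c : (∀ i, Fib i) → ι → W → Kb)
    (hint : ∀ τ j w, IsIntegral (ratLocalizedAt p) (c τ j w))
    (hequiv : ∀ τ j (σ : GK) w, c (fun i => perm i σ (τ i)) j (act σ w) = σ (c τ j w))
    (hsep : ∀ w w' : W, (∀ τ j, c τ j w = c τ j w') → w = w')
    (hadd : ∀ τ j, ∃ P : MvPolynomial (((∀ i, Fib i) × ι) ⊕ ((∀ i, Fib i) × ι)) (Bint p),
      ∀ w w', c τ j (w + w') =
        MvPolynomial.aeval (Sum.elim (fun k => c k.1 k.2 w) (fun k => c k.1 k.2 w')) P) :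
    IsFlatGaloisModule p W act := by
  classical
  refine isFlat_of_coords_separating' act hact (T := ∀ i, Fib i) (J := n × Bool)
    (fun σ τ i => perm i σ (τ i))
    (fun k τ => if k.2 then s k.1 (τ k.1) else t k.1 (τ k.1)) ?_ ?_ ?_ c hint hequiv hsep hadd
  · rintro ⟨i, b⟩ τ
    cases b
    · simpa using ht i (τ i)
    · simpa using hs i (τ i)
  · rintro σ ⟨i, b⟩ τ
    cases b
    · simpa using hteq i σ (τ i)
    · simpa using hseq i σ (τ i)
  · intro τ τ' hne
    obtain ⟨i, hi⟩ := Function.ne_iff.1 hne
    rcases hunit i (τ i) (τ' i) hi with ⟨v, hv, h1⟩ | ⟨v, hv, h1⟩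
    · exact ⟨(i, false), v, hv, by simpa using h1⟩
    · exact ⟨(i, true), v, hv, by simpa using h1⟩

end Fermat.Agent.FlatMod
end MergeWrap_Lib_FlatMod_OrderDatum

section MergeWrap_Lib_FlatMod_Unit -- from Lib/FlatMod/Unit.lean

set_option autoImplicit false
set_option linter.style.haveILetI false
set_option linter.unusedSectionVars false

namespace Fermat.Agent.FlatMod

open GaloisRep

local notation "Kb" => AlgebraicClosure ℚ
local notation "GK" => (AlgebraicClosure ℚ ≃ₐ[ℚ] AlgebraicClosure ℚ)

variable {p : ℕ}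

/-- A polynomial expression with `ℤ_(p)`-coefficients in integral elements is integral. -/
theorem isIntegral_aeval_of_isIntegral {ι : Type*} (x : ι → Kb)
    (hx : ∀ i, IsIntegral (ratLocalizedAt p) (x i)) (P : MvPolynomial ι (ratLocalizedAt p)) :
    IsIntegral (ratLocalizedAt p) (MvPolynomial.aeval x P) := by
  have h1 : (MvPolynomial.aeval x :
      MvPolynomial ι (ratLocalizedAt p) →ₐ[ratLocalizedAt p] Kb).range ≤
      integralClosure (ratLocalizedAt p) Kb := by
    rw [← Algebra.adjoin_range_eq_range_aeval]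
    refine Algebra.adjoin_le ?_
    rintro _ ⟨i, rfl⟩
    exact hx i
  exact h1 ⟨P, rfl⟩

/-- A maximal ideal of the polynomial ring containing the kernel of the evaluation at an integral
point `x` comes from a place over `p`: there is a valuation subring of `ℚ̄` over `p` in which all
values `P(x)`, `P ∈ n`, are non-units. -/
theorem exists_valuationSubring_of_maximal [Fact p.Prime] {ι : Type*} (x : ι → Kb)
    (hx : ∀ i, IsIntegral (ratLocalizedAt p) (x i))
    (n : Ideal (MvPolynomial ι (ratLocalizedAt p))) (hn : n.IsMaximal)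
    (hker : RingHom.ker (MvPolynomial.aeval x :
      MvPolynomial ι (ratLocalizedAt p) →ₐ[ratLocalizedAt p] Kb) ≤ n) :
    ∃ A : ValuationSubring Kb, A.LiesOverPrime p ∧
      ∀ P ∈ n, A.valuation (MvPolynomial.aeval x P) < 1 := by
  classical
  set Φ : MvPolynomial ι (ratLocalizedAt p) →ₐ[ratLocalizedAt p] Kb :=
    MvPolynomial.aeval x with hΦ
  let S : Subalgebra (ratLocalizedAt p) Kb := Φ.range
  let f : MvPolynomial ι (ratLocalizedAt p) →ₐ[ratLocalizedAt p] S := Φ.rangeRestrict
  have hf : Function.Surjective f := Φ.rangeRestrict_surjective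
  have hfval : ∀ P, ((f P : S) : Kb) = Φ P := fun P => rfl
  have hkerf : RingHom.ker f = RingHom.ker Φ := by
    ext P
    rw [RingHom.mem_ker, RingHom.mem_ker, ← hfval, Subtype.ext_iff]
    rfl
  let J : Ideal S := n.map f
  have hcomap : J.comap f = n := by
    rw [Ideal.comap_map_of_surjective' f hf, hkerf]
    exact sup_eq_left.2 hker
  have hJne : J ≠ ⊤ := by
    intro h
    rw [h, Ideal.comap_top] at hcomap
    exact hn.ne_top hcomap.symm
  have hJmax : J.IsMaximal :=
    (Ideal.map_eq_top_or_isMaximal_of_surjective f hf hn).resolve_left hJne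
  haveI : Algebra.IsIntegral (ratLocalizedAt p) S := by
    refine ⟨fun s => ?_⟩
    obtain ⟨P, rfl⟩ := hf s
    rw [← isIntegral_algHom_iff S.val Subtype.val_injective]
    exact isIntegral_aeval_of_isIntegral x hx P
  have hmax : (J.comap (algebraMap (ratLocalizedAt p) S)).IsMaximal :=
    Ideal.isMaximal_comap_of_isIntegral_of_isMaximal (R := ratLocalizedAt p) J
  have hpJ : algebraMap (ratLocalizedAt p) S (p : ratLocalizedAt p) ∈ J := by
    have h1 := IsLocalRing.eq_maximalIdeal hmax
    have h2 := (IsDiscreteValuationRing.irreducible_iff_uniformizer _).1 (ratLoc_irreducible_p p)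
    have h3 : (p : ratLocalizedAt p) ∈ J.comap (algebraMap (ratLocalizedAt p) S) := by
      rw [h1, h2]
      exact Ideal.mem_span_singleton_self _
    exact h3
  obtain ⟨B, hSB, hB⟩ :=
    Ideal.image_subset_nonunits_valuationSubring (A := S.toSubring) J hJne
  refine ⟨B, ?_, fun P hP => ?_⟩
  · have h1 : (p : Kb) ∈ S.toSubring.subtype '' (J : Set S) := by
      refine ⟨_, hpJ, ?_⟩
      show ((algebraMap (ratLocalizedAt p) S (p : ratLocalizedAt p) : S) : Kb) = (p : Kb)
      rw [map_natCast]
      rfl
    exact hB h1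
  · have h1 : Φ P ∈ S.toSubring.subtype '' (J : Set S) :=
      ⟨f P, Ideal.mem_map_of_mem f hP, rfl⟩
    exact (ValuationSubring.mem_nonunits_iff B).1 (hB h1)

/-- **(UNIT) local-to-global lemma**: polynomial expressions in integral coordinates on a finite
set `Y`, one of which is a unit at every point and every place over `p`, generate the unit ideal
of the ring of polynomial functions on `Y`. -/
theorem exists_unit_combination [Fact p.Prime] {Y : Type*} [Finite Y] {ι : Type*}
    {κ : Type*} [Fintype κ] (c : ι → Y → Kb)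
    (hint : ∀ i y, IsIntegral (ratLocalizedAt p) (c i y))
    (d : κ → MvPolynomial ι (ratLocalizedAt p))
    (hd : ∀ y, ∀ A : ValuationSubring Kb, A.LiesOverPrime p →
      ∃ k, A.valuation (MvPolynomial.aeval (fun i => c i y) (d k)) = 1) :
    ∃ u : κ → MvPolynomial ι (ratLocalizedAt p), ∀ y,
      ∑ k, MvPolynomial.aeval (fun i => c i y) (u k) *
        MvPolynomial.aeval (fun i => c i y) (d k) = 1 := by
  classical
  cases nonempty_fintype Y
  let Φ : Y → (MvPolynomial ι (ratLocalizedAt p) →ₐ[ratLocalizedAt p] Kb) :=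
    fun y => MvPolynomial.aeval (fun i => c i y)
  let I : Ideal (MvPolynomial ι (ratLocalizedAt p)) :=
    Ideal.span (Set.range d) ⊔ ⨅ y, RingHom.ker (Φ y)
  have hI : I = ⊤ := by
    by_contra hne
    obtain ⟨n, hn, hIn⟩ := Ideal.exists_le_maximal I hne
    have h1 : ⨅ y, RingHom.ker (Φ y) ≤ n := le_sup_right.trans hIn
    rw [← Finset.inf_univ_eq_iInf] at h1
    obtain ⟨y, -, hy⟩ := (Ideal.IsPrime.inf_le' hn.isPrime).1 h1
    obtain ⟨A, hA, hAn⟩ :=
      exists_valuationSubring_of_maximal (fun i => c i y) (fun i => hint i y) n hn hy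
    obtain ⟨k, hk⟩ := hd y A hA
    have h2 : d k ∈ n := hIn (Ideal.mem_sup_left (Ideal.subset_span ⟨k, rfl⟩))
    exact (ne_of_lt (hAn (d k) h2)) hk
  have h1 : (1 : MvPolynomial ι (ratLocalizedAt p)) ∈ I := hI ▸ Submodule.mem_top
  obtain ⟨s, hs, z, hz, hsz⟩ := Submodule.mem_sup.1 h1
  obtain ⟨u, hu⟩ := Ideal.mem_span_range_iff_exists_fun.1 hs
  refine ⟨u, fun y => ?_⟩
  have hz' : Φ y z = 0 := RingHom.mem_ker.1 (Ideal.mem_iInf.1 hz y)
  have h2 := congrArg (Φ y) hsz
  rw [map_add, hz', add_zero, ← hu, map_sum, map_one] at h2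
  rw [← h2]
  exact Finset.sum_congr rfl (fun k _ => (map_mul (Φ y) (u k) (d k)).symm)

/-- **(POLY)**: a function `f` on a finite set `Y` which at every point and every place over `p`
is a fraction `n k / d k` of polynomial expressions in the integral coordinates `c` with unit
denominator (the relations `f * d k = n k` holding everywhere) is itself a polynomial expression
in the coordinates. -/
theorem exists_poly_of_local_laws [Fact p.Prime] {Y : Type*} [Finite Y] {ι : Type*}
    {κ : Type*} [Finite κ] (c : ι → Y → Kb)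
    (hint : ∀ i y, IsIntegral (ratLocalizedAt p) (c i y)) (f : Y → Kb)
    (d n : κ → MvPolynomial ι (ratLocalizedAt p))
    (hlaw : ∀ k y, f y * MvPolynomial.aeval (fun i => c i y) (d k) =
      MvPolynomial.aeval (fun i => c i y) (n k))
    (hd : ∀ y, ∀ A : ValuationSubring Kb, A.LiesOverPrime p →
      ∃ k, A.valuation (MvPolynomial.aeval (fun i => c i y) (d k)) = 1) :
    ∃ P : MvPolynomial ι (ratLocalizedAt p), ∀ y,
      f y = MvPolynomial.aeval (fun i => c i y) P := by
  classical
  cases nonempty_fintype κ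
  obtain ⟨u, hu⟩ := exists_unit_combination c hint d hd
  refine ⟨∑ k, u k * n k, fun y => ?_⟩
  rw [map_sum]
  calc f y = f y * ∑ k, MvPolynomial.aeval (fun i => c i y) (u k) *
        MvPolynomial.aeval (fun i => c i y) (d k) := by rw [hu y, mul_one]
    _ = ∑ k, MvPolynomial.aeval (fun i => c i y) (u k * n k) := by
        rw [Finset.mul_sum]
        refine Finset.sum_congr rfl (fun k _ => ?_)
        rw [map_mul, ← hlaw k y]
        ring

/-- **(LOC) local form of the coordinate criterion**: as `isFlat_of_coords`, but the addition and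
negation laws are only required locally: for every coordinate finitely many fractional laws
`n k / d k`, valid everywhere in the form `c i (w + w') * d k = n k`, such that at every pair of
points and every place over `p` one of the denominators is a unit. -/
theorem isFlat_of_local_coords [Fact p.Prime] {W : Type} [AddCommGroup W] [Finite W]
    (act : GK → W → W) {ι : Type} [Finite ι] (c : ι → W → Kb)
    (hint : ∀ i w, IsIntegral (ratLocalizedAt p) (c i w))
    (hequiv : ∀ i (σ : GK) w, c i (act σ w) = σ (c i w))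
    (hsep : ∀ w w' : W, (∀ i, c i w = c i w') → w = w')
    (hadd : ∀ i, ∃ (κ : Type) (_ : Finite κ)
      (d n : κ → MvPolynomial (ι ⊕ ι) (ratLocalizedAt p)),
      (∀ k w w', c i (w + w') *
          MvPolynomial.aeval (Sum.elim (fun j => c j w) (fun j => c j w')) (d k) =
        MvPolynomial.aeval (Sum.elim (fun j => c j w) (fun j => c j w')) (n k)) ∧
      (∀ w w', ∀ A : ValuationSubring Kb, A.LiesOverPrime p → ∃ k,
        A.valuation
          (MvPolynomial.aeval (Sum.elim (fun j => c j w) (fun j => c j w')) (d k)) = 1))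
    (hneg : ∀ i, ∃ (κ : Type) (_ : Finite κ)
      (d n : κ → MvPolynomial ι (ratLocalizedAt p)),
      (∀ k w, c i (-w) * MvPolynomial.aeval (fun j => c j w) (d k) =
        MvPolynomial.aeval (fun j => c j w) (n k)) ∧
      (∀ w, ∀ A : ValuationSubring Kb, A.LiesOverPrime p → ∃ k,
        A.valuation (MvPolynomial.aeval (fun j => c j w) (d k)) = 1)) :
    IsFlatGaloisModule p W act := by
  refine isFlat_of_coords act c hint hequiv hsep (fun i => ?_) (fun i => ?_)
  · obtain ⟨κ, hκ, d, n, hlaw, hd⟩ := hadd i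
    let c2 : ι ⊕ ι → W × W → Kb :=
      fun j y => Sum.elim (fun j => c j y.1) (fun j => c j y.2) j
    have hc2 : ∀ y : W × W, (fun j => c2 j y) =
        Sum.elim (fun j => c j y.1) (fun j => c j y.2) := fun y => rfl
    have hint2 : ∀ j y, IsIntegral (ratLocalizedAt p) (c2 j y) := by
      intro j y
      cases j with
      | inl j => exact hint j y.1
      | inr j => exact hint j y.2
    obtain ⟨P, hP⟩ := exists_poly_of_local_laws c2 hint2 (fun y => c i (y.1 + y.2)) d n
      (fun k y => by rw [hc2]; exact hlaw k y.1 y.2)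
      (fun y A hA => by rw [hc2]; exact hd y.1 y.2 A hA)
    exact ⟨P, fun w w' => hP (w, w')⟩
  · obtain ⟨κ, hκ, d, n, hlaw, hd⟩ := hneg i
    exact exists_poly_of_local_laws c hint (fun w => c i (-w)) d n hlaw hd

/-- **(LOC)** with a local addition law and a global (polynomial) negation law. -/
theorem isFlat_of_local_add [Fact p.Prime] {W : Type} [AddCommGroup W] [Finite W]
    (act : GK → W → W) {ι : Type} [Finite ι] (c : ι → W → Kb)
    (hint : ∀ i w, IsIntegral (ratLocalizedAt p) (c i w))
    (hequiv : ∀ i (σ : GK) w, c i (act σ w) = σ (c i w))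
    (hsep : ∀ w w' : W, (∀ i, c i w = c i w') → w = w')
    (hadd : ∀ i, ∃ (κ : Type) (_ : Finite κ)
      (d n : κ → MvPolynomial (ι ⊕ ι) (ratLocalizedAt p)),
      (∀ k w w', c i (w + w') *
          MvPolynomial.aeval (Sum.elim (fun j => c j w) (fun j => c j w')) (d k) =
        MvPolynomial.aeval (Sum.elim (fun j => c j w) (fun j => c j w')) (n k)) ∧
      (∀ w w', ∀ A : ValuationSubring Kb, A.LiesOverPrime p → ∃ k,
        A.valuation
          (MvPolynomial.aeval (Sum.elim (fun j => c j w) (fun j => c j w')) (d k)) = 1))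
    (hneg : ∀ i, ∃ P : MvPolynomial ι (ratLocalizedAt p), ∀ w,
      c i (-w) = MvPolynomial.aeval (fun j => c j w) P) :
    IsFlatGaloisModule p W act := by
  refine isFlat_of_local_coords act c hint hequiv hsep hadd (fun i => ?_)
  obtain ⟨P, hP⟩ := hneg i
  refine ⟨Unit, inferInstance, fun _ => 1, fun _ => P, fun _ w => ?_, fun w A _ => ⟨(), ?_⟩⟩
  · rw [map_one, mul_one, hP]
  · rw [map_one, map_one]

end Fermat.Agent.FlatMod
end MergeWrap_Lib_FlatMod_Unit

section MergeWrap_Lib_FlatMod_OrderOmega -- from Lib/FlatMod/OrderOmega.lean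

set_option autoImplicit false
set_option linter.style.haveILetI false
set_option linter.unusedSectionVars false

namespace Fermat.Agent.FlatMod

open GaloisRep TensorProduct WithConv

local notation "Kb" => AlgebraicClosure ℚ
local notation "GK" => (AlgebraicClosure ℚ ≃ₐ[ℚ] AlgebraicClosure ℚ)
local notation "Bint" p => integralClosure (ratLocalizedAt p) Kb

variable {p : ℕ}

/-- The Lagrange interpolation polynomial of the point `t` for a family `θ` separating the
points by combinations `∑ i ∈ F t t', a t t' i * (θ i t - θ i t') = 1`. -/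
noncomputable def lagrangeSpanPoly {A : Type} [CommRing A] {T J : Type} [Fintype T]
    [DecidableEq T] (θ : J → T → A) (F : T → T → Finset J) (a : T → T → J → A) (t : T) :
    MvPolynomial J A :=
  ∏ t' ∈ Finset.univ.erase t, ∑ i ∈ F t t',
    MvPolynomial.C (a t t' i) * (MvPolynomial.X i - MvPolynomial.C (θ i t'))

theorem eval_lagrangeSpanPoly {A : Type} [CommRing A] {T J : Type} [Fintype T] [DecidableEq T]
    (θ : J → T → A) (F : T → T → Finset J) (a : T → T → J → A)
    (ha : ∀ t t', t ≠ t' → ∑ i ∈ F t t', a t t' i * (θ i t - θ i t') = 1) (t x : T) :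
    MvPolynomial.eval (fun i => θ i x) (lagrangeSpanPoly θ F a t) = if t = x then 1 else 0 := by
  unfold lagrangeSpanPoly
  rw [map_prod]
  simp only [map_sum, map_mul, MvPolynomial.eval_C, map_sub, MvPolynomial.eval_X]
  split_ifs with h
  · subst h
    apply Finset.prod_eq_one
    intro t' ht'
    exact ha t t' (Finset.ne_of_mem_erase ht').symm
  · apply Finset.prod_eq_zero (i := x)
    · exact Finset.mem_erase.2 ⟨fun h' => h h'.symm, Finset.mem_univ _⟩
    · simp

/-- The finite set of monomials used by `DescentDatum.lagrangeSpan`. -/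
noncomputable def lagrangeSpanMonomials {A : Type} [CommRing A] {T J : Type} [Fintype T]
    [DecidableEq T] (θ : J → T → A) (F : T → T → Finset J) (a : T → T → J → A) :
    Finset (J →₀ ℕ) :=
  letI : DecidableEq (J →₀ ℕ) := Classical.decEq _
  Finset.univ.biUnion fun t => (lagrangeSpanPoly θ F a t).support

theorem sum_lagrangeSpanMonomials {A : Type} [CommRing A] {T J : Type} [Fintype T]
    [DecidableEq T] (θ : J → T → A) (F : T → T → Finset J) (a : T → T → J → A)
    (ha : ∀ t t', t ≠ t' → ∑ i ∈ F t t', a t t' i * (θ i t - θ i t') = 1) (t x : T) :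
    ∑ s : {s // s ∈ lagrangeSpanMonomials θ F a},
      (lagrangeSpanPoly θ F a t).coeff s.1 * ∏ i ∈ s.1.support, θ i x ^ s.1 i =
      if t = x then 1 else 0 := by
  rw [← eval_lagrangeSpanPoly θ F a ha t x, MvPolynomial.eval_eq]
  rw [Finset.sum_coe_sort (lagrangeSpanMonomials θ F a)
    (fun s => (lagrangeSpanPoly θ F a t).coeff s * ∏ i ∈ s.support, θ i x ^ s i)]
  symm
  apply Finset.sum_subset
  · intro s hs
    unfold lagrangeSpanMonomials
    letI : DecidableEq (J →₀ ℕ) := Classical.decEq _
    exact Finset.mem_biUnion.2 ⟨t, Finset.mem_univ _, hs⟩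
  · intro s _ hs
    rw [MvPolynomial.notMem_support_iff.1 hs, zero_mul]

/-- The **Lagrange descent datum** of a Galois-stable family of integral functions on `T` whose
differences at any two distinct points generate the unit ideal. -/
noncomputable def DescentDatum.lagrangeSpan {T J : Type} [Fintype T] [DecidableEq T]
    (θ : J → T → Bint p) (perm : GK → T → T)
    (hperm : ∀ (σ : GK) (i : J) (t : T), (θ i (perm σ t) : Kb) = σ (θ i t : Kb))
    (F : T → T → Finset J) (a : T → T → J → Bint p)
    (ha : ∀ t t', t ≠ t' → ∑ i ∈ F t t', a t t' i * (θ i t - θ i t') = 1) :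
    DescentDatum p T {s // s ∈ lagrangeSpanMonomials θ F a} where
  perm := perm
  perm_bij := fun σ => by
    have h1 : Function.Injective (perm σ) := by
      intro t t' h
      by_contra hne
      have h4 : ∀ i, θ i t = θ i t' := by
        intro i
        have h2 := hperm σ i t
        have h3 := hperm σ i t'
        rw [h] at h2
        exact Subtype.ext (σ.injective (h2.symm.trans h3))
      have h5 := ha t t' hne
      simp only [h4, sub_self, mul_zero, Finset.sum_const_zero] at h5
      exact zero_ne_one h5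
    exact Finite.injective_iff_bijective.1 h1
  Ω := Matrix.of fun s t => ∏ i ∈ s.1.support, θ i t ^ s.1 i
  Ω' := Matrix.of fun t s => (lagrangeSpanPoly θ F a t).coeff s.1
  inv := by
    refine Matrix.ext fun t x => ?_
    rw [Matrix.mul_apply, Matrix.one_apply]
    simp only [Matrix.of_apply]
    exact sum_lagrangeSpanMonomials θ F a ha t x
  eqv := fun σ s t => by
    simp only [Matrix.of_apply, SubmonoidClass.coe_finsetProd, SubmonoidClass.coe_pow, map_prod,
      map_pow]
    apply Finset.prod_congr rfl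
    intro i _
    rw [hperm]

/-- **Hopf order criterion, ideal form of (B')** (seat A+): `T` carries a Galois-equivariant
family of integral functions `θ i` such that for `t ≠ t'` the differences `θ i t - θ i t'`
generate the unit ideal of the integral closure of `ℤ_(p)` in `ℚ̄`.  No negation law. -/
theorem isFlat_of_coords_span' [Fact p.Prime] {W : Type} [AddCommGroup W] [Finite W]
    (act : GK → W → W) (hact : ∀ (σ : GK) (w w' : W), act σ (w + w') = act σ w + act σ w')
    {T J ι : Type} [Finite T] [Finite ι]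
    (perm : GK → T → T)
    (θ : J → T → Kb) (hθint : ∀ i t, IsIntegral (ratLocalizedAt p) (θ i t))
    (hθeq : ∀ (σ : GK) i t, θ i (perm σ t) = σ (θ i t))
    (hθsep : ∀ t t', t ≠ t' → ∃ (F : Finset J) (a : J → Kb),
      (∀ i, IsIntegral (ratLocalizedAt p) (a i)) ∧ ∑ i ∈ F, a i * (θ i t - θ i t') = 1)
    (c : T → ι → W → Kb)
    (hint : ∀ τ i w, IsIntegral (ratLocalizedAt p) (c τ i w))
    (hequiv : ∀ τ i (σ : GK) w, c (perm σ τ) i (act σ w) = σ (c τ i w))
    (hsep : ∀ w w' : W, (∀ τ i, c τ i w = c τ i w') → w = w')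
    (hadd : ∀ τ i, ∃ P : MvPolynomial ((T × ι) ⊕ (T × ι)) (Bint p), ∀ w w',
      c τ i (w + w') =
        MvPolynomial.aeval (Sum.elim (fun k => c k.1 k.2 w) (fun k => c k.1 k.2 w')) P) :
    IsFlatGaloisModule p W act := by
  classical
  letI : Fintype T := Fintype.ofFinite T
  let θ' : J → T → Bint p := fun i t => ⟨θ i t, hθint i t⟩
  have hex : ∀ t t' : T, ∃ Fa : Finset J × (J → Bint p),
      t ≠ t' → ∑ i ∈ Fa.1, Fa.2 i * (θ' i t - θ' i t') = 1 := by
    intro t t'
    by_cases h : t = t'
    · exact ⟨(∅, 0), fun h' => absurd h h'⟩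
    · obtain ⟨F, a, ha, h1⟩ := hθsep t t' h
      refine ⟨(F, fun i => ⟨a i, ha i⟩), fun _ => Subtype.ext ?_⟩
      rw [AddSubmonoidClass.coe_finsetSum]
      exact h1
  choose Fa hFa using hex
  have hneg := fun τ i => exists_neg_poly (A := Bint p) (fun k : T × ι => c k.1 k.2)
      (fun k => ⟨⟨c k.1 k.2 0, hint k.1 k.2 0⟩, rfl⟩) (fun k => hadd k.1 k.2) (τ, i)
  exact isFlat_of_coords_datum act hact
    (DescentDatum.lagrangeSpan θ' perm (fun σ i t => hθeq σ i t) (fun t t' => (Fa t t').1)
      (fun t t' => (Fa t t').2) hFa)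
    c hint hequiv hsep hadd hneg

/-- Finitely many integral elements one of which is a unit at every place over `p` generate the
unit ideal of the integral closure. -/
theorem exists_combination_of_local_unit [Fact p.Prime] {J : Type} [Finite J] (δ : J → Kb)
    (hδ : ∀ i, IsIntegral (ratLocalizedAt p) (δ i))
    (hloc : ∀ A : ValuationSubring Kb, A.LiesOverPrime p → ∃ i, A.valuation (δ i) = 1) :
    ∃ a : J → Kb, ∃ F : Finset J,
      (∀ i, IsIntegral (ratLocalizedAt p) (a i)) ∧ ∑ i ∈ F, a i * δ i = 1 := by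
  classical
  letI : Fintype J := Fintype.ofFinite J
  obtain ⟨u, hu⟩ := exists_unit_combination (p := p) (Y := Unit) (ι := J) (κ := J)
    (fun i _ => δ i) (fun i _ => hδ i) (fun i => MvPolynomial.X i)
    (fun _ A hA => by
      obtain ⟨i, hi⟩ := hloc A hA
      exact ⟨i, by rw [MvPolynomial.aeval_X]; exact hi⟩)
  refine ⟨fun i => MvPolynomial.aeval (fun j => δ j) (u i), Finset.univ,
    fun i => isIntegral_aeval_of_isIntegral _ hδ _, ?_⟩
  have := hu ()
  simp only [MvPolynomial.aeval_X] at this
  exact this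

/-- **Hopf order criterion, local form of (B')**: at every place over `p` and for any two
distinct points of `T` one of the differences `θ i t - θ i t'` is a unit.  No negation law. -/
theorem isFlat_of_coords_local' [Fact p.Prime] {W : Type} [AddCommGroup W] [Finite W]
    (act : GK → W → W) (hact : ∀ (σ : GK) (w w' : W), act σ (w + w') = act σ w + act σ w')
    {T J ι : Type} [Finite T] [Finite J] [Finite ι]
    (perm : GK → T → T)
    (θ : J → T → Kb) (hθint : ∀ i t, IsIntegral (ratLocalizedAt p) (θ i t))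
    (hθeq : ∀ (σ : GK) i t, θ i (perm σ t) = σ (θ i t))
    (hθsep : ∀ t t', t ≠ t' → ∀ A : ValuationSubring Kb, A.LiesOverPrime p →
      ∃ i, A.valuation (θ i t - θ i t') = 1)
    (c : T → ι → W → Kb)
    (hint : ∀ τ i w, IsIntegral (ratLocalizedAt p) (c τ i w))
    (hequiv : ∀ τ i (σ : GK) w, c (perm σ τ) i (act σ w) = σ (c τ i w))
    (hsep : ∀ w w' : W, (∀ τ i, c τ i w = c τ i w') → w = w')
    (hadd : ∀ τ i, ∃ P : MvPolynomial ((T × ι) ⊕ (T × ι)) (Bint p), ∀ w w',
      c τ i (w + w') =
        MvPolynomial.aeval (Sum.elim (fun k => c k.1 k.2 w) (fun k => c k.1 k.2 w')) P) :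
    IsFlatGaloisModule p W act := by
  refine isFlat_of_coords_span' act hact perm θ hθint hθeq ?_ c hint hequiv hsep hadd
  intro t t' hne
  obtain ⟨a, F, ha, h1⟩ := exists_combination_of_local_unit (p := p)
    (fun i => θ i t - θ i t') (fun i => (hθint i t).sub (hθint i t')) (hθsep t t' hne)
  exact ⟨F, a, ha, h1⟩

/-- A unit of the valuation ring `A₀` is mapped to a unit of `A` by an automorphism mapping `A₀`
into `A`. -/
theorem valuation_map_eq_one {A₀ A : ValuationSubring Kb} (σ : GK)
    (hσ : ∀ x : Kb, x ∈ A₀ → σ x ∈ A) {u : Kb} (hu : A₀.valuation u = 1) :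
    A.valuation (σ u) = 1 := by
  have hu0 : u ≠ 0 := by
    rintro rfl
    rw [map_zero] at hu
    exact zero_ne_one hu
  have h1 : u ∈ A₀ := (ValuationSubring.valuation_le_one_iff A₀ u).1 hu.le
  have h2 : u⁻¹ ∈ A₀ := by
    apply (ValuationSubring.valuation_le_one_iff A₀ u⁻¹).1
    rw [map_inv₀, hu, inv_one]
  have h3 : A.valuation (σ u) ≤ 1 := (ValuationSubring.valuation_le_one_iff A _).2 (hσ u h1)
  have h4 : A.valuation (σ u)⁻¹ ≤ 1 := by
    apply (ValuationSubring.valuation_le_one_iff A _).2
    rw [← map_inv₀]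
    exact hσ _ h2
  have h5 : σ u ≠ 0 := fun h => hu0 ((map_eq_zero σ).1 h)
  have h6 : A.valuation (σ u) ≠ 0 := (Valuation.ne_zero_iff _).2 h5
  rw [map_inv₀] at h4
  have h7 : 1 ≤ A.valuation (σ u) := by
    by_contra hlt
    push Not at hlt
    have := (one_lt_inv₀ (zero_lt_iff.2 h6)).2 hlt
    exact absurd h4 (not_le.2 this)
  exact le_antisymm h3 h7

/-- **Hopf order criterion, one-place form of (B')**: the points of `T` are separated by units
at ONE place `A₀`, and every place over `p` is conjugate to `A₀`.  No negation law. -/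
theorem isFlat_of_coords_place' [Fact p.Prime] {W : Type} [AddCommGroup W] [Finite W]
    (act : GK → W → W) (hact : ∀ (σ : GK) (w w' : W), act σ (w + w') = act σ w + act σ w')
    {T J ι : Type} [Finite T] [Finite J] [Finite ι]
    (perm : GK → T → T)
    (θ : J → T → Kb) (hθint : ∀ i t, IsIntegral (ratLocalizedAt p) (θ i t))
    (hθeq : ∀ (σ : GK) i t, θ i (perm σ t) = σ (θ i t))
    (A₀ : ValuationSubring Kb)
    (htrans : ∀ A : ValuationSubring Kb, A.LiesOverPrime p →
      ∃ σ : GK, ∀ x : Kb, x ∈ A₀ → σ x ∈ A)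
    (hθsep : ∀ t t', t ≠ t' → ∃ i, A₀.valuation (θ i t - θ i t') = 1)
    (c : T → ι → W → Kb)
    (hint : ∀ τ i w, IsIntegral (ratLocalizedAt p) (c τ i w))
    (hequiv : ∀ τ i (σ : GK) w, c (perm σ τ) i (act σ w) = σ (c τ i w))
    (hsep : ∀ w w' : W, (∀ τ i, c τ i w = c τ i w') → w = w')
    (hadd : ∀ τ i, ∃ P : MvPolynomial ((T × ι) ⊕ (T × ι)) (Bint p), ∀ w w',
      c τ i (w + w') =
        MvPolynomial.aeval (Sum.elim (fun k => c k.1 k.2 w) (fun k => c k.1 k.2 w')) P) :
    IsFlatGaloisModule p W act := by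
  have hinj : ∀ σ : GK, Function.Injective (perm σ) := by
    intro σ t t' h
    by_contra hne
    obtain ⟨i, hi⟩ := hθsep t t' hne
    have h2 := hθeq σ i t
    rw [h, hθeq σ i t'] at h2
    have h3 : θ i t = θ i t' := (σ.injective h2).symm
    rw [h3, sub_self, map_zero] at hi
    exact zero_ne_one hi
  have hsurj : ∀ σ : GK, Function.Surjective (perm σ) :=
    fun σ => Finite.surjective_of_injective (hinj σ)
  refine isFlat_of_coords_local' act hact perm θ hθint hθeq ?_ c hint hequiv hsep hadd
  intro t t' hne A hA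
  obtain ⟨σ, hσ⟩ := htrans A hA
  obtain ⟨t₀, rfl⟩ := hsurj σ t
  obtain ⟨t₀', rfl⟩ := hsurj σ t'
  have hne0 : t₀ ≠ t₀' := fun h => hne (by rw [h])
  obtain ⟨i, hi⟩ := hθsep t₀ t₀' hne0
  refine ⟨i, ?_⟩
  rw [hθeq, hθeq, ← map_sub]
  exact valuation_map_eq_one σ hσ hi

/-- **Hopf order criterion for a product of fibres, one-place form**: the coordinates are
indexed by the tuples `τ = (P_i)_i`, `P_i` in a finite Galois set `Fib i` on which finitely many
integral equivariant functions `s i j` are given, separating the points of `Fib i` by units at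
ONE place `A₀`; every place over `p` is conjugate to `A₀`.  No negation law. -/
theorem isFlat_of_coords_fibres [Fact p.Prime] {W : Type} [AddCommGroup W] [Finite W]
    (act : GK → W → W) (hact : ∀ (σ : GK) (w w' : W), act σ (w + w') = act σ w + act σ w')
    {n J ι : Type} [Finite n] [Finite J] [Finite ι] {Fib : n → Type} [∀ i, Finite (Fib i)]
    (perm : ∀ i, GK → Fib i → Fib i)
    (s : ∀ i, J → Fib i → Kb)
    (hsint : ∀ i j P, IsIntegral (ratLocalizedAt p) (s i j P))
    (hseq : ∀ i j (σ : GK) P, s i j (perm i σ P) = σ (s i j P))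
    (A₀ : ValuationSubring Kb)
    (htrans : ∀ A : ValuationSubring Kb, A.LiesOverPrime p →
      ∃ σ : GK, ∀ x : Kb, x ∈ A₀ → σ x ∈ A)
    (hunit : ∀ i (P P' : Fib i), P ≠ P' → ∃ j, A₀.valuation (s i j P - s i j P') = 1)
    (c : (∀ i, Fib i) → ι → W → Kb)
    (hint : ∀ τ j w, IsIntegral (ratLocalizedAt p) (c τ j w))
    (hequiv : ∀ τ j (σ : GK) w, c (fun i => perm i σ (τ i)) j (act σ w) = σ (c τ j w))
    (hsep : ∀ w w' : W, (∀ τ j, c τ j w = c τ j w') → w = w')
    (hadd : ∀ τ j, ∃ P : MvPolynomial (((∀ i, Fib i) × ι) ⊕ ((∀ i, Fib i) × ι)) (Bint p),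
      ∀ w w', c τ j (w + w') =
        MvPolynomial.aeval (Sum.elim (fun k => c k.1 k.2 w) (fun k => c k.1 k.2 w')) P) :
    IsFlatGaloisModule p W act := by
  classical
  refine isFlat_of_coords_place' act hact (T := ∀ i, Fib i) (J := n × J)
    (fun σ τ i => perm i σ (τ i)) (fun k τ => s k.1 k.2 (τ k.1))
    (fun k τ => hsint k.1 k.2 (τ k.1)) (fun σ k τ => hseq k.1 k.2 σ (τ k.1)) A₀ htrans ?_
    c hint hequiv hsep hadd
  intro τ τ' hne
  obtain ⟨i, hi⟩ := Function.ne_iff.1 hne
  obtain ⟨j, hj⟩ := hunit i (τ i) (τ' i) hi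
  exact ⟨(i, j), hj⟩

end Fermat.Agent.FlatMod
end MergeWrap_Lib_FlatMod_OrderOmega
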